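import Mathlib
import Fermat.Prelude.Def_CuspForm_HeckeGaloisRepDatum

/-!
# S31: definitions

`KummerSystem N p` is the input from the geometric side.  It is deliberately WEAK (it asks, for the
moduli `m = p ^ n`, exactly what S29 needs for `m = p`):

* a lattice `H` (`= Hom_par(Γ₀(N), ℤ)`) with Hecke operators `T ℓ`, such that every relation
  between the `T ℓ` also holds between the Hecke operators on `S₂(Γ₀(N))` (`link`);
* for every `n` an abelian group `W n` killed by `p ^ n` (Kummer classes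
  `{f : p ^ n ∣ div f} / p ^ n`-th powers) with a smooth action of `G_ℚ`, endomorphisms `TW n ℓ`
  commuting with Galois, unramified outside `N p`, Eichler-Shimura relation at all Frobenius lifts;
* Hecke equivariant maps `κ n : H → W n` whose kernel is contained in `p ^ n H`.

No surjectivity of `κ n`, no Galois stability of its image, no finiteness of `W n`, no
compatibility between different `n` is required.
-/

set_option autoImplicit false

namespace Fermat.Agent.S31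

/-- the algebraic closure of `ℚ`. -/
abbrev Qb : Type := AlgebraicClosure ℚ

/-- the absolute Galois group of `ℚ`. -/
abbrev GQ : Type := Qb ≃ₐ[ℚ] Qb

/-- The Dickson sequence `D₀ = 2`, `D₁ = t`, `D_{b+2} = t D_{b+1} - ℓ D_b`. -/
def dseq {R : Type*} [Ring R] (t : R) (ℓ : ℕ) : ℕ → R
  | 0 => 2
  | 1 => t
  | (b + 2) => t * dseq t ℓ (b + 1) - (ℓ : R) * dseq t ℓ b

/-- the family of Hecke operators `T_ℓ` (`ℓ ∤ N` prime) on `S₂(Γ₀(N))`, extended by zero. -/
noncomputable def heckeFam (N : ℕ) [NeZero N] :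
    ℕ → Module.End ℂ (CuspForm (CongruenceSubgroup.Gamma0 N) 2) :=
  fun ℓ => if h : ℓ.Prime ∧ ¬ ℓ ∣ N then CuspForm.heckeTLin 2 h.1 h.2 else 0

/-- The system of Kummer classes of `X₀(N)` modulo `p ^ n`, with its integral structure. -/
structure KummerSystem (N p : ℕ) [NeZero N] : Type 1 where
  H : Type
  [instH : AddCommGroup H]
  [instFree : Module.Free ℤ H]
  [instFinite : Module.Finite ℤ H]
  T : ℕ → Module.End ℤ H
  link : ∀ P : FreeAlgebra ℤ ℕ, FreeAlgebra.lift ℤ T P = 0 →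
    FreeAlgebra.lift ℤ (heckeFam N) P = 0
  W : ℕ → Type
  [instW : ∀ n, AddCommGroup (W n)]
  tors : ∀ (n : ℕ) (w : W n), (p ^ n) • w = 0
  act : ∀ n, GQ →* AddMonoid.End (W n)
  smooth : ∀ (n : ℕ) (w : W n), ∃ L : IntermediateField ℚ Qb, FiniteDimensional ℚ L ∧
    ∀ σ : GQ, (∀ x ∈ L, σ x = x) → act n σ w = w
  TW : ∀ n, ℕ → AddMonoid.End (W n)
  comm : ∀ (n ℓ : ℕ), ℓ.Prime → ¬ ℓ ∣ N * p → ∀ (σ : GQ) (w : W n),
    TW n ℓ (act n σ w) = act n σ (TW n ℓ w)
  es : ∀ (n ℓ : ℕ), ℓ.Prime → ¬ ℓ ∣ N * p →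
    ∀ A : ValuationSubring Qb, A.LiesOverPrime ℓ → ∀ σ : GQ, A.IsFrobeniusAt σ ℓ →
      ∀ w : W n, act n σ (act n σ w) + ℓ • w = TW n ℓ (act n σ w)
  unram : ∀ (n ℓ : ℕ), ℓ.Prime → ¬ ℓ ∣ N * p →
    ∀ A : ValuationSubring Qb, A.LiesOverPrime ℓ → ∀ σ ∈ A.inertiaSubgroupIn ℚ,
      ∀ w : W n, act n σ w = w
  κ : ∀ n, H →+ W n
  κ_ker : ∀ (n : ℕ) (h : H), κ n h = 0 → ∃ h' : H, h = (p ^ n) • h'
  κ_T : ∀ (n ℓ : ℕ), ℓ.Prime → ¬ ℓ ∣ N * p → ∀ h : H, κ n (T ℓ h) = TW n ℓ (κ n h)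

attribute [instance] KummerSystem.instH KummerSystem.instFree KummerSystem.instFinite
  KummerSystem.instW

end Fermat.Agent.S31
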