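import Fermat.Agent.S31.Defs

/-!
# S31, L3: the Dickson sequence
-/

set_option autoImplicit false

namespace Fermat.Agent.S31

theorem dseq_zero {R : Type*} [Ring R] (t : R) (ℓ : ℕ) : dseq t ℓ 0 = 2 := rfl

theorem dseq_one {R : Type*} [Ring R] (t : R) (ℓ : ℕ) : dseq t ℓ 1 = t := rfl

theorem dseq_add_two {R : Type*} [Ring R] (t : R) (ℓ b : ℕ) :
    dseq t ℓ (b + 2) = t * dseq t ℓ (b + 1) - (ℓ : R) * dseq t ℓ b := rfl

theorem map_dseq {R R' : Type*} [Ring R] [Ring R'] (f : R →+* R') (t : R) (ℓ b : ℕ) :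
    f (dseq t ℓ b) = dseq (f t) ℓ b := by
  induction b using Nat.twoStepInduction with
  | zero => rw [dseq_zero, dseq_zero]; exact map_ofNat f 2
  | one => simp [dseq_one]
  | more b h1 h2 => simp [dseq_add_two, h1, h2]

/-- `D_b = x ^ b + (t - x) ^ b`. -/
theorem dseq_eq_pow_add_pow {R : Type*} [Ring R] (x t : R) (ℓ b : ℕ) (hc : Commute t x)
    (h : x * x - t * x + (ℓ : R) = 0) : dseq t ℓ b = x ^ b + (t - x) ^ b := by
  have h1 : x * (t - x) = (ℓ : R) := by
    rw [mul_sub, ← hc.eq]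
    have : (ℓ : R) = t * x - x * x := by
      have := h
      rw [sub_add_eq_add_sub, sub_eq_zero] at this
      rw [← this]; abel
    rw [this]
  have h2 : (t - x) * x = (ℓ : R) := by
    rw [← h1, mul_sub, sub_mul, hc.eq]
  induction b using Nat.twoStepInduction with
  | zero => simp [dseq_zero]; norm_num
  | one => simp [dseq_one]
  | more b ih1 ih2 =>
    rw [dseq_add_two, ih1, ih2]
    have e1 : t = x + (t - x) := by abel
    have e2 : x * (t - x) ^ (b + 1) = (ℓ : R) * (t - x) ^ b := by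
      rw [pow_succ', ← mul_assoc, h1]
    have e3 : (t - x) * x ^ (b + 1) = (ℓ : R) * x ^ b := by
      rw [pow_succ', ← mul_assoc, h2]
    calc t * (x ^ (b + 1) + (t - x) ^ (b + 1)) - (ℓ : R) * (x ^ b + (t - x) ^ b)
        = (x + (t - x)) * (x ^ (b + 1) + (t - x) ^ (b + 1))
            - (ℓ : R) * (x ^ b + (t - x) ^ b) := by rw [← e1]
      _ = x * x ^ (b + 1) + (t - x) * (t - x) ^ (b + 1) := by
          rw [add_mul, mul_add, mul_add, e2, e3, mul_add]; abel
      _ = x ^ (b + 2) + (t - x) ^ (b + 2) := by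
          rw [← pow_succ', ← pow_succ']

theorem dseq_relation {R : Type*} [Ring R] (x t : R) (ℓ b : ℕ) (hc : Commute t x)
    (h : x * x - t * x + (ℓ : R) = 0) :
    x ^ b * x ^ b - dseq t ℓ b * x ^ b + (ℓ : R) ^ b = 0 := by
  have h2 : (t - x) * x = (ℓ : R) := by
    have : (ℓ : R) = t * x - x * x := by
      have := h
      rw [sub_add_eq_add_sub, sub_eq_zero] at this
      rw [← this]; abel
    rw [this, sub_mul]
  have hc' : Commute (t - x) x := hc.sub_left (Commute.refl x)
  rw [dseq_eq_pow_add_pow x t ℓ b hc h, add_mul, ← hc'.mul_pow, h2]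
  abel

theorem cayley_hamilton_two {T : Type*} [CommRing T] (X : Matrix (Fin 2) (Fin 2) T) :
    X * X = X.trace • X - X.det • (1 : Matrix (Fin 2) (Fin 2) T) := by
  ext i j
  fin_cases i <;> fin_cases j <;>
    simp [Matrix.mul_apply, Fin.sum_univ_two, Matrix.trace_fin_two, Matrix.det_fin_two] <;> ring

theorem trace_pow_eq_dseq {T : Type*} [CommRing T] (X : Matrix (Fin 2) (Fin 2) T) (ℓ b : ℕ)
    (hdet : X.det = (ℓ : T)) : (X ^ b).trace = dseq X.trace ℓ b := by
  induction b using Nat.twoStepInduction with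
  | zero => simp [dseq_zero, Matrix.trace_fin_two]
  | one => simp [dseq_one]
  | more b ih1 ih2 =>
    rw [dseq_add_two, ← ih1, ← ih2]
    have : X ^ (b + 2) = X.trace • X ^ (b + 1) - X.det • X ^ b := by
      rw [pow_add, pow_two, cayley_hamilton_two, mul_sub, mul_smul_comm, mul_smul_comm, mul_one,
        ← pow_succ]
    rw [this, Matrix.trace_sub, Matrix.trace_smul, Matrix.trace_smul, hdet, smul_eq_mul,
      smul_eq_mul]

end Fermat.Agent.S31
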