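import Fermat.Agent.S16.LowerBound
import Fermat.Agent.S31.Dickson
import Fermat.Agent.S30.LinkPeriod

/-!
# The lattice `H = Hom_par(Γ₀(N), ℤ)` with its Hecke operators, and the `link` with `S₂(Γ₀(N))`
-/

set_option autoImplicit false

namespace Fermat.Agent.S31

open CongruenceSubgroup Matrix.SpecialLinearGroup ModularForm ModularCurve ModularCurve.Period
open Fermat.Agent.S16
open scoped MatrixGroups

/-! ### the cocycle relation -/

theorem hecke_cocycle (N : ℕ) {ℓ : ℕ} (hℓ : ℓ.Prime) (γ δ : Gamma0 N) (x : HIdx N ℓ) :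
    hσ N hℓ (γ * δ) x = hσ N hℓ δ (hσ N hℓ γ x) ∧
      hκ N hℓ (γ * δ) x = hκ N hℓ γ x * hκ N hℓ δ (hσ N hℓ γ x) := by
  have h1 := hRep_mul N hℓ (γ * δ) x
  have h2 := hRep_mul N hℓ γ x
  have h3 := hRep_mul N hℓ δ (hσ N hℓ γ x)
  have h4 : hRep ℓ x.1 * mapGL ℝ ((γ * δ : Gamma0 N) : SL(2, ℤ)) =
      mapGL ℝ (hκ N hℓ γ x : SL(2, ℤ)) * mapGL ℝ (hκ N hℓ δ (hσ N hℓ γ x) : SL(2, ℤ)) *
        hRep ℓ (hσ N hℓ δ (hσ N hℓ γ x)).1 := by
    rw [Subgroup.coe_mul, map_mul, ← mul_assoc, h2, mul_assoc, h3, mul_assoc]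
  rw [h1] at h4
  have h5 : hRep ℓ (hσ N hℓ (γ * δ) x).1 =
      mapGL ℝ ((hκ N hℓ (γ * δ) x : SL(2, ℤ))⁻¹ * ((hκ N hℓ γ x : SL(2, ℤ)) *
        (hκ N hℓ δ (hσ N hℓ γ x) : SL(2, ℤ)))) * hRep ℓ (hσ N hℓ δ (hσ N hℓ γ x)).1 := by
    rw [map_mul, map_mul, map_inv, mul_assoc, ← h4, inv_mul_cancel_left]
  obtain ⟨e1, e2⟩ := hRep_index_unique N hℓ _ _ _ h5
  refine ⟨e1, ?_⟩
  apply Subtype.ext
  rw [Subgroup.coe_mul]
  exact (inv_mul_eq_one.mp e2)

/-- the Hecke operator on homomorphisms `Γ₀(N) → A`. -/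
noncomputable def heckeHom (N : ℕ) {ℓ : ℕ} (hℓ : ℓ.Prime) {A : Type} [AddCommGroup A]
    (φ : Additive (Gamma0 N) →+ A) : Additive (Gamma0 N) →+ A :=
  AddMonoidHom.mk' (fun γ => heckeFun N hℓ (fun δ => φ (Additive.ofMul δ)) (Additive.toMul γ)) (by
    intro γ δ
    simp only [heckeFun, toMul_add]
    have : ∀ x, φ (Additive.ofMul (hκ N hℓ (Additive.toMul γ * Additive.toMul δ) x)) =
        φ (Additive.ofMul (hκ N hℓ (Additive.toMul γ) x)) +
          φ (Additive.ofMul (hκ N hℓ (Additive.toMul δ) (hσ N hℓ (Additive.toMul γ) x))) := by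
      intro x
      rw [(hecke_cocycle N hℓ _ _ x).2, ofMul_mul, map_add]
    simp only [this, Finset.sum_add_distrib]
    congr 1
    exact Equiv.sum_comp (hσ N hℓ (Additive.toMul γ))
      (fun y => φ (Additive.ofMul (hκ N hℓ (Additive.toMul δ) y))))

theorem heckeHom_apply (N : ℕ) {ℓ : ℕ} (hℓ : ℓ.Prime) {A : Type} [AddCommGroup A]
    (φ : Additive (Gamma0 N) →+ A) (γ : Gamma0 N) :
    heckeHom N hℓ φ (Additive.ofMul γ) = heckeFun N hℓ (fun δ => φ (Additive.ofMul δ)) γ := rfl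

theorem hσ_pow (N : ℕ) {ℓ : ℕ} (hℓ : ℓ.Prime) (γ : Gamma0 N) (r : ℕ) :
    hσ N hℓ (γ ^ (r + 1)) = (hσ N hℓ γ) ^ (r + 1) := by
  induction r with
  | zero => simp
  | succ r ih =>
    ext1 x
    rw [pow_succ γ, (hecke_cocycle N hℓ _ _ x).1, ih, pow_succ' (hσ N hℓ γ) (r + 1)]
    rfl

theorem dseq_one_sq (t : ℤ) (ht : t ^ 2 = 4) (r : ℕ) : (dseq t 1 r) ^ 2 = 4 := by
  have h2 : t = 2 ∨ t = -2 := by
    have : (t - 2) * (t + 2) = 0 := by ring_nf; omega
    rcases mul_eq_zero.mp this with h | h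
    · left; omega
    · right; omega
  rcases h2 with rfl | rfl
  · have : ∀ r, dseq (2 : ℤ) 1 r = 2 := by
      intro r
      induction r using Nat.twoStepInduction with
      | zero => rfl
      | one => rfl
      | more b h1 h2 => rw [dseq_add_two, h1, h2]; norm_num
    rw [this]; norm_num
  · have : ∀ r, dseq (-2 : ℤ) 1 r = 2 * (-1) ^ r := by
      intro r
      induction r using Nat.twoStepInduction with
      | zero => rfl
      | one => rfl
      | more b h1 h2 => rw [dseq_add_two, h1, h2]; push_cast; ring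
    rw [this, mul_pow, ← pow_mul, mul_comm r 2, pow_mul]; norm_num

theorem trace_pow_sq (γ : SL(2, ℤ)) (h : (γ : Matrix (Fin 2) (Fin 2) ℤ).trace ^ 2 = 4) (r : ℕ) :
    ((γ ^ r : SL(2, ℤ)) : Matrix (Fin 2) (Fin 2) ℤ).trace ^ 2 = 4 := by
  rw [Matrix.SpecialLinearGroup.coe_pow,
    trace_pow_eq_dseq (γ : Matrix (Fin 2) (Fin 2) ℤ) 1 r (by simp)]
  exact dseq_one_sq _ h r

theorem trace_eq_of_conj (a : GL (Fin 2) ℝ) (γ κ : SL(2, ℤ))
    (h : a * mapGL ℝ γ = mapGL ℝ κ * a) :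
    (κ : Matrix (Fin 2) (Fin 2) ℤ).trace = (γ : Matrix (Fin 2) (Fin 2) ℤ).trace := by
  have h1 : mapGL ℝ κ = a * mapGL ℝ γ * a⁻¹ := by rw [h]; group
  have h2 : ((mapGL ℝ κ : GL (Fin 2) ℝ) : Matrix (Fin 2) (Fin 2) ℝ).trace =
      ((mapGL ℝ γ : GL (Fin 2) ℝ) : Matrix (Fin 2) (Fin 2) ℝ).trace := by
    rw [h1]
    exact Matrix.trace_units_conj a _
  have h3 : ∀ g : SL(2, ℤ), ((mapGL ℝ g : GL (Fin 2) ℝ) : Matrix (Fin 2) (Fin 2) ℝ).trace =
      (((g : Matrix (Fin 2) (Fin 2) ℤ).trace : ℤ) : ℝ) := by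
    intro g
    simp [Matrix.trace_fin_two]
  rw [h3, h3] at h2
  exact_mod_cast h2

theorem heckeHom_isParabolic (N : ℕ) {ℓ : ℕ} (hℓ : ℓ.Prime) {A : Type} [AddCommGroup A]
    [IsAddTorsionFree A] (φ : Additive (Gamma0 N) →+ A) (hφ : IsParabolicHom (Gamma0 N) φ) :
    IsParabolicHom (Gamma0 N) (heckeHom N hℓ φ) := by
  intro γ hγ
  obtain ⟨r, hr⟩ : ∃ r : ℕ, (hσ N hℓ γ) ^ (r + 1) = 1 := by
    have hpos : 0 < orderOf (hσ N hℓ γ) := orderOf_pos _
    refine ⟨orderOf (hσ N hℓ γ) - 1, ?_⟩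
    rw [Nat.sub_add_cancel hpos, pow_orderOf_eq_one]
  have h1 : heckeHom N hℓ φ (Additive.ofMul (γ ^ (r + 1))) = 0 := by
    rw [heckeHom_apply]
    refine Finset.sum_eq_zero fun x _ => ?_
    apply hφ
    have h2 := hRep_mul N hℓ (γ ^ (r + 1)) x
    rw [hσ_pow, hr, Equiv.Perm.one_apply] at h2
    rw [trace_eq_of_conj _ _ _ h2, Subgroup.coe_pow]
    exact trace_pow_sq _ hγ _
  rw [ofMul_pow, map_nsmul] at h1
  exact (nsmul_eq_zero_iff_right (Nat.succ_ne_zero r)).mp h1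

/-! ### the lattice -/

/-- the lattice `Hom_par(Γ₀(N), ℤ)`. -/
abbrev Lat (N : ℕ) : Type := parabolicHoms ℤ (Gamma0 N) ℤ

theorem exists_lat_embedding (N : ℕ) [NeZero N] :
    ∃ (S : Set (Additive (Gamma0 N))) (_ : S.Finite) (ev : Lat N →ₗ[ℤ] (S → ℤ)),
      Function.Injective ev := by
  obtain ⟨S, hS, hfin⟩ := AddGroup.fg_iff.mp (inferInstance : AddGroup.FG (Additive (Gamma0 N)))
  let ev : Lat N →ₗ[ℤ] (S → ℤ) :=
    { toFun := fun φ s => φ.1 s.1
      map_add' := fun _ _ => rfl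
      map_smul' := fun _ _ => rfl }
  refine ⟨S, hfin, ev, ?_⟩
  intro φ ψ h
  apply Subtype.ext
  refine AddMonoidHom.eq_of_eqOn_dense hS fun s hs => ?_
  exact congrFun h ⟨s, hs⟩

instance lat_finite (N : ℕ) [NeZero N] : Module.Finite ℤ (Lat N) := by
  obtain ⟨S, hfin, ev, hev⟩ := exists_lat_embedding N
  have : Finite S := hfin
  exact Module.Finite.of_injective ev hev

instance lat_free (N : ℕ) [NeZero N] : Module.Free ℤ (Lat N) := by
  obtain ⟨S, hfin, ev, hev⟩ := exists_lat_embedding N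
  have : Finite S := hfin
  exact Module.Free.of_equiv (LinearEquiv.ofInjective ev hev).symm

/-- the Hecke operator `T_ℓ` on the lattice, for a prime `ℓ`. -/
noncomputable def latHecke (N : ℕ) {ℓ : ℕ} (hℓ : ℓ.Prime) : Module.End ℤ (Lat N) where
  toFun φ := ⟨heckeHom N hℓ φ.1, heckeHom_isParabolic N hℓ φ.1 φ.2⟩
  map_add' φ ψ := by
    apply Subtype.ext
    refine AddMonoidHom.ext fun γ => ?_
    exact congrFun (heckeFun_add N hℓ (fun δ => φ.1 (Additive.ofMul δ))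
      (fun δ => ψ.1 (Additive.ofMul δ))) (Additive.toMul γ)
  map_smul' c φ := by
    apply Subtype.ext
    refine AddMonoidHom.ext fun γ => ?_
    exact congrFun (heckeFun_zsmul N hℓ c (fun δ => φ.1 (Additive.ofMul δ))) (Additive.toMul γ)

/-- the family of Hecke operators on the lattice (`0` unless `ℓ ∤ N` is prime). -/
noncomputable def latT (N : ℕ) (ℓ : ℕ) : Module.End ℤ (Lat N) :=
  open scoped Classical in if h : ℓ.Prime ∧ ¬ ℓ ∣ N then latHecke N h.1 else 0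

theorem latT_apply (N : ℕ) {ℓ : ℕ} (hℓ : ℓ.Prime) (hℓN : ¬ ℓ ∣ N) (φ : Lat N) (γ : Gamma0 N) :
    (latT N ℓ φ).1 (Additive.ofMul γ) = heckeFun N hℓ (fun δ => φ.1 (Additive.ofMul δ)) γ := by
  have : latT N ℓ = latHecke N hℓ := dif_pos ⟨hℓ, hℓN⟩
  rw [this]
  rfl

/-! ### the link with cusp forms -/

theorem periodMap_eq_zero (N : ℕ) [NeZero N] (f : CuspForm (Gamma0 N) 2)
    (h : periodMap N f = 0) : f = 0 := by
  obtain ⟨pml, hpml, hdef⟩ := periodHomPair_def N (Fermat.Agent.ES.existsPeriodMapLinear N)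
  have h1 : periodHomPair N (f, 0) = 0 := by
    rw [hdef]
    simp only [LinearMap.coprod_apply, LinearMap.comp_apply, map_zero, add_zero]
    rw [hpml, h, map_zero]
  have h2 := Fermat.Agent.ES.periodHomPair_injective N (h1.trans (map_zero _).symm)
  exact congrArg Prod.fst h2

/-- the Hecke operators on all functions `Γ₀(N) → ℂ`. -/
noncomputable def funT (N : ℕ) (ℓ : ℕ) : Module.End ℂ (Gamma0 N → ℂ) :=
  open scoped Classical in
  if h : ℓ.Prime ∧ ¬ ℓ ∣ N then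
    { toFun := fun φ => heckeFun N h.1 φ
      map_add' := fun φ ψ => heckeFun_add N h.1 φ ψ
      map_smul' := fun c φ => by
        funext γ
        simp only [heckeFun, Pi.smul_apply, Finset.smul_sum, RingHom.id_apply] }
  else 0

/-- integral classes as complex valued functions. -/
def latι (N : ℕ) : Lat N →+ (Gamma0 N → ℂ) where
  toFun φ := fun γ => ((φ.1 (Additive.ofMul γ) : ℤ) : ℂ)
  map_zero' := by funext γ; simp
  map_add' φ ψ := by funext γ; simp

/-- the period map as an additive map to functions. -/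
noncomputable def latJ (N : ℕ) [NeZero N] : CuspForm (Gamma0 N) 2 →+ (Gamma0 N → ℂ) where
  toFun f := per N f
  map_zero' := by
    have := per_add N 0 0
    rw [add_zero] at this
    exact left_eq_add.mp this
  map_add' f g := per_add N f g

theorem span_of_parabolic (N : ℕ) [NeZero N] (ψ : Additive (Gamma0 N) →+ ℂ)
    (hψ : IsParabolicHom (Gamma0 N) ψ) :
    (fun γ : Gamma0 N => ψ (Additive.ofMul γ)) ∈ Submodule.span ℂ (Set.range (latι N)) := by
  have hfin : Module.Finite ℤ ψ.range := Module.Finite.iff_addGroup_fg.mpr inferInstance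
  let b := Module.Free.chooseBasis ℤ ψ.range
  let ψj : Module.Free.ChooseBasisIndex ℤ ψ.range → Lat N := fun j =>
    ⟨(b.coord j).toAddMonoidHom.comp ψ.rangeRestrict, by
      intro γ hγ
      have h0 : ψ.rangeRestrict (Additive.ofMul γ) = 0 := Subtype.ext (hψ γ hγ)
      change b.coord j (ψ.rangeRestrict (Additive.ofMul γ)) = 0
      rw [h0, map_zero]⟩
  have hsum : (fun γ : Gamma0 N => ψ (Additive.ofMul γ)) =
      ∑ j, ((b j : ψ.range) : ℂ) • latι N (ψj j) := by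
    funext γ
    have h1 := b.sum_repr (ψ.rangeRestrict (Additive.ofMul γ))
    have h2 := congrArg (Subtype.val : ψ.range → ℂ) h1
    rw [Finset.sum_apply]
    change ψ (Additive.ofMul γ) = _
    have h3 : ((ψ.rangeRestrict (Additive.ofMul γ) : ψ.range) : ℂ) = ψ (Additive.ofMul γ) := rfl
    rw [← h3, ← h2, AddSubgroup.val_finsetSum]
    refine Finset.sum_congr rfl fun j _ => ?_
    change ((b.repr (ψ.rangeRestrict (Additive.ofMul γ)) j • b j : ψ.range) : ℂ) =
      ((b j : ψ.range) : ℂ) * ((b.coord j (ψ.rangeRestrict (Additive.ofMul γ)) : ℤ) : ℂ)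
    rw [AddSubgroup.coe_zsmul, zsmul_eq_mul, mul_comm]
    rfl
  rw [hsum]
  exact Submodule.sum_mem _ fun j _ =>
    Submodule.smul_mem _ _ (Submodule.subset_span ⟨ψj j, rfl⟩)

/-- **the link**: every relation between the Hecke operators on the lattice holds on
`S₂(Γ₀(N))`. -/
theorem lat_link (N : ℕ) [NeZero N] (P : FreeAlgebra ℤ ℕ)
    (hP : FreeAlgebra.lift ℤ (latT N) P = 0) : FreeAlgebra.lift ℤ (heckeFam N) P = 0 := by
  refine S30.link_of_period (latT N) (funT N) (latι N) ?_ (latJ N) ?_ ?_ ?_ P hP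
  · intro ℓ φ
    by_cases h : ℓ.Prime ∧ ¬ ℓ ∣ N
    · have h2 : funT N ℓ (latι N φ) = heckeFun N h.1 (latι N φ) := by
        unfold funT
        rw [dif_pos h]
        rfl
      rw [h2]
      funext γ
      change (((latT N ℓ φ).1 (Additive.ofMul γ) : ℤ) : ℂ) = _
      rw [latT_apply N h.1 h.2]
      exact (heckeFun_comp N h.1 (Int.castAddHom ℂ) (fun δ => φ.1 (Additive.ofMul δ)) γ).symm
    · have h1 : latT N ℓ = 0 := dif_neg h
      have h2 : funT N ℓ = 0 := dif_neg h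
      rw [h1, h2]
      simp
  · rw [injective_iff_map_eq_zero]
    intro f hf
    apply periodMap_eq_zero N f
    refine AddMonoidHom.ext fun γ => ?_
    exact congrFun hf (Additive.toMul γ)
  · intro ℓ f
    by_cases h : ℓ.Prime ∧ ¬ ℓ ∣ N
    · have h2 : funT N ℓ (latJ N f) = heckeFun N h.1 (latJ N f) := by
        unfold funT
        rw [dif_pos h]
        rfl
      have h3 : heckeFam N ℓ = CuspForm.heckeTLin 2 h.1 h.2 := dif_pos h
      rw [h2, h3]
      funext γ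
      have h4 := periodMap_heckeFormsGen N ⟨ℓ, h.1⟩ f γ
      rw [CuspForm.heckeFormsGen_of_not_dvd (ℓ := ⟨ℓ, h.1⟩) h.2, CuspForm.heckeAlgebra.coe_T] at h4
      exact h4
    · have h1 : heckeFam N ℓ = 0 := dif_neg h
      have h2 : funT N ℓ = 0 := dif_neg h
      rw [h1, h2]
      simp
  · intro f
    exact span_of_parabolic N (periodMap N f)
      ((mem_parabolicHoms_iff (R := ℂ)).mp (Fermat.Agent.ES.periodMap_mem_parabolicHoms N f))

end Fermat.Agent.S31
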