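import Fermat.Agent.S30.GeomAsm

/-!
# S31, L12: existence of the Kummer system (input from the geometric chapters GES / NV / CC)
-/

set_option autoImplicit false

namespace Fermat.Agent.S31

theorem exists_kummerSystem (N p : ℕ) [NeZero N] (hp : p.Prime) : Nonempty (KummerSystem N p) :=
  have : NeZero p := ⟨hp.ne_zero⟩
  ⟨S30.kummerSys N p⟩

end Fermat.Agent.S31
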