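import Fermat.Agent.S31.Defs

/-!
# S31, L9: a `GaloisRepAdic` in matrix form
-/

set_option autoImplicit false

namespace Fermat.Agent.S31

open IsLocalRing TensorProduct

theorem repr_mem_of_mem_smul_top {T : Type*} [CommRing T] {V : Type*} [AddCommGroup V] [Module T V]
    {ι : Type*} (b : Module.Basis ι T V) (I : Ideal T) {x : V}
    (hx : x ∈ I • (⊤ : Submodule T V)) (i : ι) : b.repr x i ∈ I := by
  refine Submodule.smul_induction_on (p := fun x => b.repr x i ∈ I) hx ?_ ?_
  · intro a ha w _
    rw [map_smul, Finsupp.smul_apply, smul_eq_mul]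
    exact I.mul_mem_right _ ha
  · intro x y hx hy
    rw [map_add, Finsupp.add_apply]
    exact I.add_mem hx hy

theorem exists_matrix_form {T : Type} [CommRing T] [IsLocalRing T] (ρ : GaloisRepAdic T)
    (hirr : ρ.residual.IsAbsolutelyIrreducible) :
    ∃ M : GQ →* Matrix (Fin 2) (Fin 2) T,
      (∀ σ, M σ = 1 → ρ.ρ σ = 1) ∧
      (∀ σ, (M σ).charpoly = LinearMap.charpoly (ρ.ρ σ)) ∧
      (∀ n : ℕ, ∃ L : IntermediateField ℚ Qb, FiniteDimensional ℚ L ∧
        ∀ σ : GQ, (∀ x ∈ L, σ x = x) → ∀ i j, (M σ - 1) i j ∈ maximalIdeal T ^ n) ∧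
      (∀ W : Submodule (AlgebraicClosure (ResidueField T))
          (Fin 2 → AlgebraicClosure (ResidueField T)),
        (∀ g, ∀ v ∈ W, ((M g).map ((algebraMap (ResidueField T)
          (AlgebraicClosure (ResidueField T))).comp (residue T))).mulVec v ∈ W) →
            W = ⊥ ∨ W = ⊤) := by
  classical
  let b : Module.Basis (Fin 2) T ρ.V := Module.finBasisOfFinrankEq T ρ.V ρ.finrank_eq
  let M : GQ →* Matrix (Fin 2) (Fin 2) T :=
    ((LinearMap.toMatrixAlgEquiv b : Module.End T ρ.V ≃ₐ[T] Matrix (Fin 2) (Fin 2) T) :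
      Module.End T ρ.V →* Matrix (Fin 2) (Fin 2) T).comp ρ.ρ
  have hM : ∀ σ, M σ = LinearMap.toMatrix b b (ρ.ρ σ) := fun σ => rfl
  refine ⟨M, ?_, ?_, ?_, ?_⟩
  · intro σ h
    have h1 : LinearMap.toMatrixAlgEquiv b (ρ.ρ σ) = LinearMap.toMatrixAlgEquiv b 1 := by
      rw [map_one]; exact h
    exact (LinearMap.toMatrixAlgEquiv b).injective h1
  · intro σ
    rw [hM]
    exact LinearMap.charpoly_toMatrix (ρ.ρ σ) b
  · intro n
    obtain ⟨L, hL, h⟩ := ρ.isAdicContinuous n
    refine ⟨L, hL, fun σ hσ i j => ?_⟩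
    have h1 : (M σ - 1) i j = b.repr (ρ.ρ σ (b j) - b j) i := by
      rw [Matrix.sub_apply, hM, LinearMap.toMatrix_apply, map_sub, Finsupp.sub_apply,
        Module.Basis.repr_self, Matrix.one_apply, Finsupp.single_apply]
      simp only [eq_comm]
    rw [h1]
    exact repr_mem_of_mem_smul_top b _ (h σ hσ (b j)) i
  · intro W hW
    let k := ResidueField T
    let K := AlgebraicClosure k
    let b1 : Module.Basis (Fin 2) k (k ⊗[T] ρ.V) := Algebra.TensorProduct.basis k b
    let b2 : Module.Basis (Fin 2) K (K ⊗[k] (k ⊗[T] ρ.V)) := Algebra.TensorProduct.basis K b1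
    have hmat : ∀ g, LinearMap.toMatrix b2 b2 (((ρ.ρ g).baseChange k).baseChange K) =
        (M g).map ((algebraMap k K).comp (residue T)) := by
      intro g
      rw [LinearMap.toMatrix_baseChange, LinearMap.toMatrix_baseChange, hM, Matrix.map_map]
      rfl
    let W' : Submodule K (K ⊗[k] (k ⊗[T] ρ.V)) := W.comap b2.equivFun.toLinearMap
    have hW' : ∀ σ : GQ, ∀ x ∈ W', (((ρ.ρ σ).baseChange k).baseChange K) x ∈ W' := by
      intro σ x hx
      have h1 := hW σ (b2.equivFun x) hx
      rw [← hmat] at h1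
      have h2 := LinearMap.toMatrix_mulVec_repr b2 b2 (((ρ.ρ σ).baseChange k).baseChange K) x
      change b2.equivFun _ ∈ W
      have h3 : (b2.equivFun ((((ρ.ρ σ).baseChange k).baseChange K) x) : Fin 2 → K) =
          (LinearMap.toMatrix b2 b2 (((ρ.ρ σ).baseChange k).baseChange K)).mulVec
            (b2.equivFun x) := by
        funext i
        have := congrFun h2 i
        exact this.symm
      rw [h3]
      exact h1
    have hres : W' = ⊥ ∨ W' = ⊤ := hirr W' hW'
    rcases hres with h | h
    · left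
      rw [eq_bot_iff]
      intro v hv
      have : b2.equivFun.symm v ∈ W' := by
        change b2.equivFun (b2.equivFun.symm v) ∈ W
        rwa [LinearEquiv.apply_symm_apply]
      rw [h, Submodule.mem_bot] at this
      have h2 := congrArg b2.equivFun this
      rw [LinearEquiv.apply_symm_apply, map_zero] at h2
      exact (Submodule.mem_bot K).mpr h2
    · right
      rw [eq_top_iff]
      intro v _
      have : b2.equivFun.symm v ∈ W' := by rw [h]; exact Submodule.mem_top
      change b2.equivFun (b2.equivFun.symm v) ∈ W at this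
      rwa [LinearEquiv.apply_symm_apply] at this

end Fermat.Agent.S31
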