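import Fermat.Agent.S31.Dickson

/-!
# S31, L5 + L7: Artin-Rees for the Hecke ring inside the endomorphisms of the lattice
-/

set_option autoImplicit false

namespace Fermat.Agent.S31

open Pointwise

theorem artin_rees_end {H : Type*} [AddCommGroup H] [Module.Free ℤ H] [Module.Finite ℤ H] (p : ℕ)
    (W : Submodule ℤ (Module.End ℤ H)) :
    ∃ k : ℕ, ∀ n ≥ k, ∀ x ∈ W, (∀ h : H, ∃ h' : H, x h = (p ^ n) • h') →
      ∃ z ∈ W, x = ((p ^ (n - k) : ℕ) : ℤ) • z := by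
  obtain ⟨k, hk⟩ := Ideal.exists_pow_inf_eq_pow_smul (Ideal.span {(p : ℤ)}) W
  refine ⟨k, fun n hn x hx hdvd => ?_⟩
  have h1 : x ∈ (Ideal.span {(p : ℤ)}) ^ n • (⊤ : Submodule ℤ (Module.End ℤ H)) ⊓ W := by
    refine ⟨?_, hx⟩
    rw [Ideal.span_singleton_pow, Submodule.ideal_span_singleton_smul]
    let e := Module.Free.chooseBasis ℤ H
    choose y hy using fun i => hdvd (e i)
    refine (Submodule.mem_smul_pointwise_iff_exists _ _ _).mpr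
      ⟨e.constr ℤ y, Submodule.mem_top, ?_⟩
    refine e.ext fun i => ?_
    rw [LinearMap.smul_apply, Module.Basis.constr_basis, hy i, ← natCast_zsmul]
    push_cast
    rfl
  rw [hk n hn, Ideal.span_singleton_pow, Submodule.ideal_span_singleton_smul] at h1
  obtain ⟨z, hz, hzx⟩ := (Submodule.mem_smul_pointwise_iff_exists _ _ _).mp h1
  refine ⟨z, hz.2, ?_⟩
  rw [← hzx]
  push_cast
  rfl

theorem lift_dseq_sub {R : Type*} [Ring R] [Algebra ℤ R] (f : ℕ → R) (ℓ b ℓ' b' : ℕ) :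
    FreeAlgebra.lift ℤ f (dseq (FreeAlgebra.ι ℤ ℓ) ℓ b - dseq (FreeAlgebra.ι ℤ ℓ') ℓ' b') =
      dseq (f ℓ) ℓ b - dseq (f ℓ') ℓ' b' := by
  have h1 := map_dseq (FreeAlgebra.lift ℤ f : FreeAlgebra ℤ ℕ →ₐ[ℤ] R).toRingHom
    (FreeAlgebra.ι ℤ ℓ) ℓ b
  have h2 := map_dseq (FreeAlgebra.lift ℤ f : FreeAlgebra ℤ ℕ →ₐ[ℤ] R).toRingHom
    (FreeAlgebra.ι ℤ ℓ') ℓ' b'
  simp only [AlgHom.toRingHom_eq_coe, RingHom.coe_coe, FreeAlgebra.lift_ι_apply] at h1 h2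
  rw [map_sub, h1, h2]

theorem hecke_congr {H : Type*} [AddCommGroup H] [Module.Free ℤ H] [Module.Finite ℤ H] (p : ℕ)
    (TH : ℕ → Module.End ℤ H) {𝕋 : Type*} [CommRing 𝕋] (t : ℕ → 𝕋)
    (faithful : ∀ P : FreeAlgebra ℤ ℕ, FreeAlgebra.lift ℤ TH P = 0 → FreeAlgebra.lift ℤ t P = 0) :
    ∃ k : ℕ, ∀ n ≥ k, ∀ ℓ b ℓ' b' : ℕ,
      (∀ h : H, ∃ h' : H, (dseq (TH ℓ) ℓ b - dseq (TH ℓ') ℓ' b') h = (p ^ n) • h') →
      ∃ w : 𝕋, dseq (t ℓ) ℓ b - dseq (t ℓ') ℓ' b' = (p : 𝕋) ^ (n - k) * w := by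
  obtain ⟨k, hk⟩ := artin_rees_end p (Subalgebra.toSubmodule (FreeAlgebra.lift ℤ TH).range)
  refine ⟨k, fun n hn ℓ b ℓ' b' h => ?_⟩
  let P : FreeAlgebra ℤ ℕ :=
    dseq (FreeAlgebra.ι ℤ ℓ) ℓ b - dseq (FreeAlgebra.ι ℤ ℓ') ℓ' b'
  have hx : FreeAlgebra.lift ℤ TH P ∈ Subalgebra.toSubmodule (FreeAlgebra.lift ℤ TH).range :=
    ⟨P, rfl⟩
  have hdvd : ∀ h : H, ∃ h' : H, (FreeAlgebra.lift ℤ TH P) h = (p ^ n) • h' := by
    rw [lift_dseq_sub]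
    exact h
  obtain ⟨z, ⟨Q, hQ⟩, hz⟩ := hk n hn _ hx hdvd
  have h0 : FreeAlgebra.lift ℤ TH (P - ((p ^ (n - k) : ℕ) : ℤ) • Q) = 0 := by
    rw [map_sub, map_smul, hz, sub_eq_zero]
    congr 1
    exact hQ.symm
  have h1 := faithful _ h0
  rw [map_sub, map_smul, sub_eq_zero, lift_dseq_sub] at h1
  refine ⟨FreeAlgebra.lift ℤ t Q, ?_⟩
  rw [h1, zsmul_eq_mul]
  push_cast
  rfl

end Fermat.Agent.S31
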