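import Fermat.Agent.S31.Defs
import Fermat.Agent.S54.Frob
import Fermat.Agent.S05.InertiaFacts

/-!
# S31, L4: Frobenius lifts and inertia on roots of unity
-/

set_option autoImplicit false

namespace Fermat.Agent.S31

open Fermat.Agent.S54 Fermat.Agent.S05

theorem frob_sub_pow_mem_nonunits {A : ValuationSubring Qb} {σ : GQ} {ℓ : ℕ}
    (hσ : A.IsFrobeniusAt σ ℓ) {x : Qb} (hx : x ∈ A) : σ x - x ^ ℓ ∈ A.nonunits := by
  obtain ⟨hd, h⟩ := hσ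
  have h2 := h (IsLocalRing.residue A ⟨x, hx⟩)
  rw [← IsLocalRing.ResidueField.residue_smul, ← map_pow, ← sub_eq_zero, ← map_sub,
    IsLocalRing.residue_eq_zero_iff] at h2
  exact (ValuationSubring.mem_nonunits_iff_exists_mem_maximalIdeal).mpr
    ⟨(((⟨σ, hd⟩ : A.decompositionSubgroup ℚ) • (⟨x, hx⟩ : A)) - (⟨x, hx⟩ : A) ^ ℓ : A).2, h2⟩

theorem mem_of_pow_eq_one (A : ValuationSubring Qb) {m : ℕ} (hm : m ≠ 0) {a : Qb}
    (ha : a ^ m = 1) : a ∈ A := by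
  rw [← A.valuation_le_one_iff]
  have h1 : A.valuation a ^ m = 1 := by rw [← map_pow, ha, map_one]
  exact le_of_eq ((pow_eq_one_iff_of_nonneg zero_le hm).mp h1)

/-- roots of unity of order prime to the residue characteristic are distinct in the residue
field. -/
theorem eq_of_sub_mem_nonunits {A : ValuationSubring Qb} {ℓ m : ℕ} (hℓ : ℓ.Prime)
    (hA : A.LiesOverPrime ℓ) (hm : ¬ ℓ ∣ m) {a b : Qb} (ha : a ^ m = 1) (hb : b ^ m = 1)
    (h : a - b ∈ A.nonunits) : a = b := by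
  have hm0 : m ≠ 0 := fun h0 => hm (h0 ▸ dvd_zero ℓ)
  have hb0 : b ≠ 0 := by
    rintro rfl
    rw [zero_pow hm0] at hb
    exact zero_ne_one hb
  have hbinv : b⁻¹ ∈ A := mem_of_pow_eq_one A hm0 (by rw [inv_pow, hb, inv_one])
  set z : Qb := a * b⁻¹ with hz
  have hzm : z ^ m = 1 := by rw [hz, mul_pow, ha, inv_pow, hb, inv_one, one_mul]
  have hzA : z ∈ A := mem_of_pow_eq_one A hm0 hzm
  have hz1 : z - 1 ∈ A.nonunits := by
    have : z - 1 = (a - b) * b⁻¹ := by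
      rw [hz, sub_mul, mul_inv_cancel₀ hb0]
    rw [this]
    exact nonunits_mul_mem A h hbinv
  by_contra hab
  have hzne : z ≠ 1 := by
    intro h1
    apply hab
    rw [hz] at h1
    field_simp at h1
    exact h1
  have hsum : ∑ i ∈ Finset.range m, z ^ i = 0 := by
    have := mul_geom_sum z m
    rw [hzm, sub_self] at this
    exact (mul_eq_zero.mp this).resolve_left (sub_ne_zero.mpr hzne)
  have hpow : ∀ i : ℕ, z ^ i - 1 ∈ A.nonunits ∨ z ^ i - 1 = 0 := by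
    intro i
    left
    rw [← mul_geom_sum z i]
    exact nonunits_mul_mem A hz1 (A.toSubring.sum_mem fun j _ => A.toSubring.pow_mem hzA j)
  have hval : ∀ k : ℕ, A.valuation (∑ i ∈ Finset.range k, (z ^ i - 1)) < 1 := by
    intro k
    induction k with
    | zero => simp
    | succ k ih =>
      rw [Finset.sum_range_succ]
      refine lt_of_le_of_lt (A.valuation.map_add _ _) (max_lt ih ?_)
      rcases hpow k with h1 | h1
      · exact (ValuationSubring.mem_nonunits_iff A).mp h1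
      · rw [h1, map_zero]; exact zero_lt_one
  have h3 : (∑ i ∈ Finset.range m, (z ^ i - 1)) = -((m : ℤ) : Qb) := by
    rw [Finset.sum_sub_distrib, hsum]
    simp
  have h4 : ((m : ℤ) : Qb) ∈ A.nonunits := by
    rw [ValuationSubring.mem_nonunits_iff, ← Valuation.map_neg, ← h3]
    exact hval m
  have := isAlgebraic_Lb
  exact intCast_not_mem_nonunits A hℓ hA (m : ℤ) (by exact_mod_cast hm) h4

theorem frob_apply_root {A : ValuationSubring Qb} {σ : GQ} {ℓ m : ℕ} (hℓ : ℓ.Prime)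
    (hA : A.LiesOverPrime ℓ) (hσ : A.IsFrobeniusAt σ ℓ) (hm : ¬ ℓ ∣ m) {a : Qb}
    (ha : a ^ m = 1) : σ a = a ^ ℓ := by
  have hm0 : m ≠ 0 := fun h0 => hm (h0 ▸ dvd_zero ℓ)
  refine eq_of_sub_mem_nonunits hℓ hA hm ?_ ?_
    (frob_sub_pow_mem_nonunits hσ (mem_of_pow_eq_one A hm0 ha))
  · rw [← map_pow, ha, map_one]
  · rw [← pow_mul, mul_comm, pow_mul, ha, one_pow]

theorem frob_pow_apply_root {A : ValuationSubring Qb} {σ : GQ} {ℓ m : ℕ} (hℓ : ℓ.Prime)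
    (hA : A.LiesOverPrime ℓ) (hσ : A.IsFrobeniusAt σ ℓ) (hm : ¬ ℓ ∣ m) {a : Qb}
    (ha : a ^ m = 1) (b : ℕ) : (σ ^ b) a = a ^ (ℓ ^ b) := by
  induction b generalizing a with
  | zero => simp
  | succ b ih =>
    rw [pow_succ, AlgEquiv.mul_apply, frob_apply_root hℓ hA hσ hm ha, ih
      (by rw [← pow_mul, mul_comm, pow_mul, ha, one_pow]), ← pow_mul, ← pow_succ']

theorem inertia_apply_root {P : ValuationSubring Qb} {τ : GQ} {q m : ℕ} (hq : q.Prime)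
    (hP : P.LiesOverPrime q) (hτ : τ ∈ P.inertiaSubgroupIn ℚ) (hm : ¬ q ∣ m) {a : Qb}
    (ha : a ^ m = 1) : τ a = a := by
  have hm0 : m ≠ 0 := fun h0 => hm (h0 ▸ dvd_zero q)
  refine eq_of_sub_mem_nonunits hq hP hm ?_ ha
    (sub_mem_nonunits_of_mem_inertia hτ (mem_of_pow_eq_one P hm0 ha))
  rw [← map_pow, ha, map_one]

theorem frob_pow_cast_eq (p n : ℕ) (hp : p.Prime) {ℓ ℓ' q : ℕ} (hℓ : ℓ.Prime) (hℓp : ℓ ≠ p)
    (hℓ' : ℓ'.Prime) (hℓ'p : ℓ' ≠ p) (hq : q.Prime) (hqp : q ≠ p)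
    (A A' P : ValuationSubring Qb) (hA : A.LiesOverPrime ℓ) (hA' : A'.LiesOverPrime ℓ')
    (hP : P.LiesOverPrime q) (σ σ' τ g : GQ) (hσ : A.IsFrobeniusAt σ ℓ)
    (hσ' : A'.IsFrobeniusAt σ' ℓ') (hτ : τ ∈ P.inertiaSubgroupIn ℚ) (b b' : ℕ) (ζ : Qb)
    (hζ : IsPrimitiveRoot ζ (p ^ n)) (h1 : (σ ^ b) ζ = g ζ) (h2 : (σ' ^ b') ζ = (τ * g) ζ) :
    ((ℓ ^ b : ℕ) : ZMod (p ^ n)) = ((ℓ' ^ b' : ℕ) : ZMod (p ^ n)) := by
  have hnd : ∀ {s : ℕ}, s.Prime → s ≠ p → ¬ s ∣ p ^ n := by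
    intro s hs hsp hdvd
    exact hsp ((Nat.prime_dvd_prime_iff_eq hs hp).mp (hs.dvd_of_dvd_pow hdvd))
  have hζ1 : ζ ^ (p ^ n) = 1 := hζ.pow_eq_one
  rw [frob_pow_apply_root hℓ hA hσ (hnd hℓ hℓp) hζ1] at h1
  rw [frob_pow_apply_root hℓ' hA' hσ' (hnd hℓ' hℓ'p) hζ1, AlgEquiv.mul_apply,
    inertia_apply_root hq hP hτ (hnd hq hqp) (by rw [← map_pow, hζ1, map_one]), ← h1] at h2
  have hpos : 0 < p ^ n := pow_pos hp.pos n
  have hmod : ∀ k : ℕ, ζ ^ k = ζ ^ (k % p ^ n) := by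
    intro k
    conv_lhs => rw [← Nat.div_add_mod k (p ^ n), pow_add, pow_mul, hζ1, one_pow, one_mul]
  rw [hmod (ℓ' ^ b'), hmod (ℓ ^ b)] at h2
  have h3 := hζ.pow_inj (Nat.mod_lt _ hpos) (Nat.mod_lt _ hpos) h2
  exact ((ZMod.natCast_eq_natCast_iff' _ _ _).mpr h3).symm

end Fermat.Agent.S31
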