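import Fermat.Agent.S31.Dickson

/-!
# S31, L6: the trace of `M g` modulo `I` in terms of a Frobenius lift
-/

set_option autoImplicit false

namespace Fermat.Agent.S31

theorem trace_congr {T : Type*} [CommRing T] (I : Ideal T) (M : GQ →* Matrix (Fin 2) (Fin 2) T)
    (L : IntermediateField ℚ Qb)
    (hL : ∀ σ : GQ, (∀ x ∈ L, σ x = x) → ∀ i j, (M σ - 1) i j ∈ I)
    (σ g : GQ) (b ℓ : ℕ) (hdet : (M σ).det = (ℓ : T)) (hσ : ∀ x ∈ L, (σ ^ b) x = g x) :
    (M g).trace - dseq (M σ).trace ℓ b ∈ I := by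
  set h : GQ := (σ ^ b)⁻¹ * g with hh
  have hfix : ∀ x ∈ L, h x = x := by
    intro x hx
    rw [hh, AlgEquiv.mul_apply, ← hσ x hx]
    exact (σ ^ b).symm_apply_apply x
  have hg : g = σ ^ b * h := by rw [hh, mul_inv_cancel_left]
  have hE := hL h hfix
  rw [← trace_pow_eq_dseq (M σ) ℓ b hdet, ← map_pow]
  have : (M g).trace - (M (σ ^ b)).trace = (M (σ ^ b) * (M h - 1)).trace := by
    rw [mul_sub, mul_one, ← map_mul, ← hg, Matrix.trace_sub]
  rw [this]
  simp only [Matrix.trace, Matrix.diag, Matrix.mul_apply]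
  exact I.sum_mem fun i _ => I.sum_mem fun j _ => I.mul_mem_left _ (hE j i)

end Fermat.Agent.S31
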