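import Fermat.Agent.S31.TraceDet
import Fermat.Agent.S31.TraceCongr
import Fermat.Agent.S31.HeckeCongr
import Fermat.Agent.S31.RootsOfUnity
import Fermat.Agent.S29.FDMain

/-!
# S31, L8: the abstract core (no modular forms)
-/

set_option autoImplicit false

namespace Fermat.Agent.S31

open IsLocalRing

theorem end_mul_apply {W : Type*} [AddCommGroup W] (f g : AddMonoid.End W) (w : W) :
    (f * g) w = f (g w) := rfl

theorem act_eq_of_level {W : Type*} [AddCommGroup W] (act : GQ →* AddMonoid.End W) (w : W)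
    (L : IntermediateField ℚ Qb) (hL : ∀ σ : GQ, (∀ x ∈ L, σ x = x) → act σ w = w) (s g : GQ)
    (hs : ∀ x ∈ L, s x = g x) : act s w = act g w := by
  set h : GQ := s⁻¹ * g with hh
  have hfix : ∀ x ∈ L, h x = x := by
    intro x hx
    rw [hh, AlgEquiv.mul_apply, ← hs x hx]
    exact s.symm_apply_apply x
  have hg : g = s * h := by rw [hh, mul_inv_cancel_left]
  rw [hg, map_mul, end_mul_apply, hL h hfix]

theorem kappa_dseq {H W : Type*} [AddCommGroup H] [AddCommGroup W] (κ : H →+ W)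
    (tH : Module.End ℤ H) (tW : AddMonoid.End W) (hκ : ∀ h, κ (tH h) = tW (κ h)) (ℓ b : ℕ) (h : H) :
    κ (dseq tH ℓ b h) = dseq tW ℓ b (κ h) := by
  induction b using Nat.twoStepInduction generalizing h with
  | zero =>
    rw [dseq_zero, dseq_zero, ← one_add_one_eq_two, ← one_add_one_eq_two]
    change κ (h + h) = κ h + κ h
    rw [map_add]
  | one => rw [dseq_one, dseq_one, hκ]
  | more b ih1 ih2 =>
    rw [dseq_add_two, dseq_add_two]
    change κ (tH (dseq tH ℓ (b + 1) h) - (ℓ : Module.End ℤ H) (dseq tH ℓ b h)) =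
      tW (dseq tW ℓ (b + 1) (κ h)) - (ℓ : AddMonoid.End W) (dseq tW ℓ b (κ h))
    rw [map_sub, hκ, ih2, Module.End.natCast_apply, AddMonoid.End.natCast_apply, map_nsmul, ih1]

theorem nsmul_eq_of_cast_eq {W : Type*} [AddCommGroup W] (m : ℕ) (w : W) (hw : m • w = 0)
    (a b : ℕ) (hab : (a : ZMod m) = (b : ZMod m)) : a • w = b • w := by
  have h1 : (m : ℤ) ∣ (a : ℤ) - (b : ℤ) := by
    have := (ZMod.natCast_eq_natCast_iff a b m).mp hab
    exact (Nat.modEq_iff_dvd.mp this.symm)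
  obtain ⟨c, hc⟩ := h1
  have h2 : ((a : ℤ) - (b : ℤ)) • w = 0 := by
    rw [hc, mul_comm, mul_smul, natCast_zsmul, hw, smul_zero]
  rw [sub_smul, natCast_zsmul, natCast_zsmul, sub_eq_zero] at h2
  exact h2

/-- the quadratic relation for `g` on a vector, from a Frobenius lift `σ` with `σ ^ b = g`. -/
theorem quad_relation {W : Type*} [AddCommGroup W] (act : GQ →* AddMonoid.End W)
    (tW : AddMonoid.End W) (ℓ b : ℕ) (σ : GQ)
    (comm : ∀ w, tW (act σ w) = act σ (tW w))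
    (es : ∀ w, act σ (act σ w) + ℓ • w = tW (act σ w)) (w v u : W)
    (h1 : act (σ ^ b) w = v) (h2 : act (σ ^ b) v = u) :
    u - dseq tW ℓ b v + (ℓ ^ b) • w = 0 := by
  have hc : Commute tW (act σ) := by
    refine AddMonoidHom.ext fun w => ?_
    exact comm w
  have hrel : act σ * act σ - tW * act σ + (ℓ : AddMonoid.End W) = 0 := by
    refine AddMonoidHom.ext fun w => ?_
    change act σ (act σ w) - tW (act σ w) + (ℓ : AddMonoid.End W) w = 0
    rw [AddMonoid.End.natCast_apply, ← es w]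
    abel
  have h := dseq_relation (act σ) tW ℓ b hc hrel
  rw [← map_pow, ← Nat.cast_pow] at h
  have h3 := DFunLike.congr_fun h w
  change act (σ ^ b) (act (σ ^ b) w) - dseq tW ℓ b (act (σ ^ b) w) +
    ((ℓ ^ b : ℕ) : AddMonoid.End W) w = 0 at h3
  rwa [AddMonoid.End.natCast_apply, h1, h2] at h3

section

variable {T : Type} [CommRing T] [IsLocalRing T]
  (p : ℕ) (hp : p.Prime) (hpT : (p : T) ∈ maximalIdeal T) (S : Finset ℕ) (hpS : p ∈ S)
  (M : GQ →* Matrix (Fin 2) (Fin 2) T)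
  (hcont : ∀ n : ℕ, ∃ L : IntermediateField ℚ Qb, FiniteDimensional ℚ L ∧
    ∀ σ : GQ, (∀ x ∈ L, σ x = x) → ∀ i j, (M σ - 1) i j ∈ maximalIdeal T ^ n)
  {𝕋 : Type} [CommRing 𝕋] (π : 𝕋 →+* T) (t : ℕ → 𝕋)
  (hfrob : ∀ ℓ : ℕ, ℓ.Prime → ℓ ∉ S → ∀ A : ValuationSubring Qb, A.LiesOverPrime ℓ →
    ∀ σ : GQ, A.IsFrobeniusAt σ ℓ → (M σ).trace = π (t ℓ) ∧ (M σ).det = (ℓ : T))
  {H : Type} [AddCommGroup H] [Module.Free ℤ H] [Module.Finite ℤ H] (TH : ℕ → Module.End ℤ H)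
  (faithful : ∀ P : FreeAlgebra ℤ ℕ, FreeAlgebra.lift ℤ TH P = 0 → FreeAlgebra.lift ℤ t P = 0)
  {W : ℕ → Type} [∀ n, AddCommGroup (W n)]
  (tors : ∀ (n : ℕ) (w : W n), (p ^ n) • w = 0)
  (act : ∀ n, GQ →* AddMonoid.End (W n))
  (smooth : ∀ (n : ℕ) (w : W n), ∃ L : IntermediateField ℚ Qb, FiniteDimensional ℚ L ∧
    ∀ σ : GQ, (∀ x ∈ L, σ x = x) → act n σ w = w)
  (TW : ∀ n, ℕ → AddMonoid.End (W n))
  (comm : ∀ (n ℓ : ℕ), ℓ.Prime → ℓ ∉ S → ∀ (σ : GQ) (w : W n),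
    TW n ℓ (act n σ w) = act n σ (TW n ℓ w))
  (es : ∀ (n ℓ : ℕ), ℓ.Prime → ℓ ∉ S →
    ∀ A : ValuationSubring Qb, A.LiesOverPrime ℓ → ∀ σ : GQ, A.IsFrobeniusAt σ ℓ →
      ∀ w : W n, act n σ (act n σ w) + ℓ • w = TW n ℓ (act n σ w))
  (unram : ∀ (n ℓ : ℕ), ℓ.Prime → ℓ ∉ S →
    ∀ A : ValuationSubring Qb, A.LiesOverPrime ℓ → ∀ σ ∈ A.inertiaSubgroupIn ℚ,
      ∀ w : W n, act n σ w = w)
  (κ : ∀ n, H →+ W n)
  (κ_ker : ∀ (n : ℕ) (h : H), κ n h = 0 → ∃ h' : H, h = (p ^ n) • h')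
  (κ_T : ∀ (n ℓ : ℕ), ℓ.Prime → ℓ ∉ S → ∀ h : H, κ n (TH ℓ h) = TW n ℓ (κ n h))

include hp hpT hpS hcont hfrob faithful tors smooth comm es unram κ_ker κ_T in
theorem trace_inertia_congr (q : ℕ) (hq : q.Prime) (hqS : q ∉ S) (P : ValuationSubring Qb)
    (hP : P.LiesOverPrime q) (τ : GQ) (hτ : τ ∈ P.inertiaSubgroupIn ℚ) (g : GQ) (m : ℕ) :
    (M (τ * g)).trace - (M g).trace ∈ maximalIdeal T ^ m := by
  obtain ⟨k, hk⟩ := hecke_congr p TH t faithful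
  set n : ℕ := m + k with hn
  let e := Module.Free.chooseBasis ℤ H
  choose La hLafd hLa using fun i => smooth n (κ n (e i))
  choose Lb hLbfd hLb using fun i => smooth n (act n g⁻¹ (κ n (e i)))
  obtain ⟨L3, hL3fd, hL3⟩ := hcont m
  obtain ⟨ζ, hζ⟩ : ∃ ζ : Qb, IsPrimitiveRoot ζ (p ^ n) := by
    have : NeZero (p ^ n) := ⟨(pow_pos hp.pos n).ne'⟩
    have : NeZero ((p ^ n : ℕ) : Qb) := ⟨Nat.cast_ne_zero.mpr (NeZero.ne (p ^ n))⟩
    exact HasEnoughRootsOfUnity.exists_primitiveRoot Qb (p ^ n)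
  have hζint : IsIntegral ℚ ζ := (AlgebraicClosure.isAlgebraic ℚ).isIntegral.isIntegral ζ
  let L2 : IntermediateField ℚ Qb := IntermediateField.adjoin ℚ {ζ}
  have hL2fd : FiniteDimensional ℚ L2 := IntermediateField.adjoin.finiteDimensional hζint
  let L : IntermediateField ℚ Qb := ((⨆ i, La i) ⊔ (⨆ i, Lb i)) ⊔ L2 ⊔ L3
  have hLfd : FiniteDimensional ℚ L := inferInstance
  have hLaL : ∀ i, ∀ x ∈ La i, x ∈ L := fun i x hx =>
    ((le_iSup La i).trans (le_sup_left.trans (le_sup_left.trans le_sup_left)) : La i ≤ L) hx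
  have hLbL : ∀ i, ∀ x ∈ Lb i, x ∈ L := fun i x hx =>
    ((le_iSup Lb i).trans (le_sup_right.trans (le_sup_left.trans le_sup_left)) : Lb i ≤ L) hx
  have hL3L : ∀ x ∈ L3, x ∈ L := fun x hx => (le_sup_right : L3 ≤ L) hx
  have hζL : ζ ∈ L := (le_sup_right.trans le_sup_left : L2 ≤ L)
    (IntermediateField.mem_adjoin_simple_self ℚ ζ)
  obtain ⟨ℓ, hℓ, hℓS, A, hA, σ, hσ, b, hb⟩ := S29.frobenius_density_lite L S g
  obtain ⟨ℓ', hℓ', hℓ'S, A', hA', σ', hσ', b', hb'⟩ := S29.frobenius_density_lite L S (τ * g)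
  have hne : ∀ {s : ℕ}, s ∉ S → s ≠ p := fun hs h => hs (h ▸ hpS)
  have hcyc := frob_pow_cast_eq p n hp hℓ (hne hℓS) hℓ' (hne hℓ'S) hq (hne hqS) A A' P hA hA' hP
    σ σ' τ g hσ hσ' hτ b b' ζ hζ (hb ζ hζL) (hb' ζ hζL)
  have hτw : ∀ w : W n, act n τ w = w := unram n q hq hqS P hP τ hτ
  -- the two Hecke elements agree on the basis vectors
  have hbasis : ∀ i, dseq (TW n ℓ) ℓ b (κ n (e i)) = dseq (TW n ℓ') ℓ' b' (κ n (e i)) := by
    intro i
    set v : W n := κ n (e i) with hv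
    set w : W n := act n g⁻¹ v with hw
    have hgw : act n g w = v := by
      rw [hw, ← end_mul_apply, ← map_mul, mul_inv_cancel, map_one]
      rfl
    have a1 : act n (σ ^ b) w = v := by
      rw [act_eq_of_level (act n) w (Lb i) (hLb i) (σ ^ b) g fun x hx => hb x (hLbL i x hx), hgw]
    have a2 : act n (σ ^ b) v = act n g v :=
      act_eq_of_level (act n) v (La i) (hLa i) (σ ^ b) g fun x hx => hb x (hLaL i x hx)
    have b1 : act n (σ' ^ b') w = v := by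
      rw [act_eq_of_level (act n) w (Lb i) (hLb i) (σ' ^ b') (τ * g)
        fun x hx => hb' x (hLbL i x hx), map_mul, end_mul_apply, hgw, hτw]
    have b2 : act n (σ' ^ b') v = act n g v := by
      rw [act_eq_of_level (act n) v (La i) (hLa i) (σ' ^ b') (τ * g)
        fun x hx => hb' x (hLaL i x hx), map_mul, end_mul_apply, hτw]
    have r1 := quad_relation (act n) (TW n ℓ) ℓ b σ (comm n ℓ hℓ hℓS σ)
      (es n ℓ hℓ hℓS A hA σ hσ) w v _ a1 a2
    have r2 := quad_relation (act n) (TW n ℓ') ℓ' b' σ' (comm n ℓ' hℓ' hℓ'S σ')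
      (es n ℓ' hℓ' hℓ'S A' hA' σ' hσ') w v _ b1 b2
    rw [nsmul_eq_of_cast_eq (p ^ n) w (tors n w) _ _ hcyc] at r1
    have := r1.trans r2.symm
    have h3 := add_right_cancel this
    exact sub_right_injective h3
  have hall : ∀ h : H, ∃ h' : H,
      (dseq (TH ℓ) ℓ b - dseq (TH ℓ') ℓ' b') h = (p ^ n) • h' := by
    have hzero : (κ n).toIntLinearMap ∘ₗ (dseq (TH ℓ) ℓ b - dseq (TH ℓ') ℓ' b') = 0 := by
      refine e.ext fun i => ?_
      change κ n (dseq (TH ℓ) ℓ b (e i) - dseq (TH ℓ') ℓ' b' (e i)) = 0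
      rw [map_sub, kappa_dseq (κ n) (TH ℓ) (TW n ℓ) (κ_T n ℓ hℓ hℓS),
        kappa_dseq (κ n) (TH ℓ') (TW n ℓ') (κ_T n ℓ' hℓ' hℓ'S), hbasis i, sub_self]
    intro h
    exact κ_ker n _ (LinearMap.congr_fun hzero h)
  obtain ⟨w, hw⟩ := hk n (by omega) ℓ b ℓ' b' hall
  have hnk : n - k = m := by omega
  rw [hnk] at hw
  have hw' : dseq (π (t ℓ)) ℓ b - dseq (π (t ℓ')) ℓ' b' ∈ maximalIdeal T ^ m := by
    rw [← map_dseq, ← map_dseq, ← map_sub, hw, map_mul, map_pow, map_natCast]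
    exact Ideal.mul_mem_right _ _ (Ideal.pow_mem_pow hpT m)
  obtain ⟨htr, hdet⟩ := hfrob ℓ hℓ hℓS A hA σ hσ
  obtain ⟨htr', hdet'⟩ := hfrob ℓ' hℓ' hℓ'S A' hA' σ' hσ'
  have c1 := trace_congr (maximalIdeal T ^ m) M L3 hL3 σ g b ℓ hdet fun x hx => hb x (hL3L x hx)
  have c2 := trace_congr (maximalIdeal T ^ m) M L3 hL3 σ' (τ * g) b' ℓ' hdet'
    fun x hx => hb' x (hL3L x hx)
  rw [htr] at c1
  rw [htr'] at c2
  have : (M (τ * g)).trace - (M g).trace =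
      ((M (τ * g)).trace - dseq (π (t ℓ')) ℓ' b') - ((M g).trace - dseq (π (t ℓ)) ℓ b)
        - (dseq (π (t ℓ)) ℓ b - dseq (π (t ℓ')) ℓ' b') := by ring
  rw [this]
  exact Ideal.sub_mem _ (Ideal.sub_mem _ c2 c1) hw'

include hp hpT hpS hcont hfrob faithful tors smooth comm es unram κ_ker κ_T in
theorem core [IsHausdorff (maximalIdeal T) T] {K : Type} [Field K] [IsAlgClosed K] (φ : T →+* K)
    [IsLocalHom φ]
    (hirr : ∀ W : Submodule K (Fin 2 → K),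
      (∀ g, ∀ v ∈ W, ((M g).map φ).mulVec v ∈ W) → W = ⊥ ∨ W = ⊤)
    (q : ℕ) (hq : q.Prime) (hqS : q ∉ S) (P : ValuationSubring Qb)
    (hP : P.LiesOverPrime q) (τ : GQ) (hτ : τ ∈ P.inertiaSubgroupIn ℚ) : M τ = 1 := by
  rw [← sub_eq_zero]
  apply trace_determines φ M hirr
  intro g
  rw [sub_mul, one_mul, ← map_mul, Matrix.trace_sub]
  apply IsHausdorff.haus (inferInstance : IsHausdorff (maximalIdeal T) T)
  intro m
  rw [SModEq.zero, smul_eq_mul, Ideal.mul_top]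
  exact trace_inertia_congr p hp hpT S hpS M hcont π t hfrob TH faithful tors act smooth TW comm es
    unram κ κ_ker κ_T q hq hqS P hP τ hτ g m

end

end Fermat.Agent.S31
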