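import Fermat.Agent.S31.Defs

/-!
# S31, L10: restricting the faithfulness statement to a subset of the Hecke operators
-/

set_option autoImplicit false

namespace Fermat.Agent.S31

theorem restrict_faithful {𝕋 : Type*} [CommRing 𝕋] {E : Type*} [Ring E] [Algebra ℤ E]
    {E' : Type*} [Ring E'] [Algebra ℤ E']
    (j : 𝕋 →+* E) (hj : Function.Injective j) (cond : ℕ → Prop) [DecidablePred cond]
    (Tm : ℕ → E') (fam : ℕ → E) (t : ℕ → 𝕋)
    (ht : ∀ ℓ, j (t ℓ) = if cond ℓ then fam ℓ else 0)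
    (faithful : ∀ P : FreeAlgebra ℤ ℕ, FreeAlgebra.lift ℤ Tm P = 0 → FreeAlgebra.lift ℤ fam P = 0) :
    ∀ P : FreeAlgebra ℤ ℕ, FreeAlgebra.lift ℤ (fun ℓ => if cond ℓ then Tm ℓ else 0) P = 0 →
      FreeAlgebra.lift ℤ t P = 0 := by
  intro P hP
  let sub : FreeAlgebra ℤ ℕ →ₐ[ℤ] FreeAlgebra ℤ ℕ :=
    FreeAlgebra.lift ℤ (fun ℓ => if cond ℓ then FreeAlgebra.ι ℤ ℓ else 0)
  have h1 : FreeAlgebra.lift ℤ (fun ℓ => if cond ℓ then Tm ℓ else 0) =
      (FreeAlgebra.lift ℤ Tm).comp sub := by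
    apply FreeAlgebra.hom_ext
    funext ℓ
    simp only [Function.comp, FreeAlgebra.lift_ι_apply, AlgHom.comp_apply, sub]
    split_ifs
    · rw [FreeAlgebra.lift_ι_apply]
    · rw [map_zero]
  let j' : 𝕋 →ₐ[ℤ] E :=
    { j with
      commutes' := fun n => by
        change j (algebraMap ℤ 𝕋 n) = algebraMap ℤ E n
        rw [eq_intCast (algebraMap ℤ 𝕋) n, eq_intCast (algebraMap ℤ E) n, map_intCast] }
  have h2 : j'.comp (FreeAlgebra.lift ℤ t) = (FreeAlgebra.lift ℤ fam).comp sub := by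
    apply FreeAlgebra.hom_ext
    funext ℓ
    simp only [Function.comp, FreeAlgebra.lift_ι_apply, AlgHom.comp_apply, sub]
    have : j' (t ℓ) = j (t ℓ) := rfl
    rw [this, ht]
    split_ifs
    · rw [FreeAlgebra.lift_ι_apply]
    · rw [map_zero]
  rw [h1, AlgHom.comp_apply] at hP
  have h3 := faithful _ hP
  rw [← AlgHom.comp_apply, ← h2, AlgHom.comp_apply] at h3
  apply hj
  rw [map_zero]
  exact h3

end Fermat.Agent.S31
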