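import Fermat.Agent.S31.Defs

/-!
# S31, L1: Burnside's theorem for `2 × 2` matrices, in its dual form
-/

set_option autoImplicit false

namespace Fermat.Agent.S31

open Matrix

theorem mul_mul_self_two {K : Type*} [CommRing K] (Z Y : Matrix (Fin 2) (Fin 2) K) :
    Z * Y * Z = (Z * Y).trace • Z - Z.det • Y.adjugate := by
  ext i j
  fin_cases i <;> fin_cases j <;>
    simp [Matrix.mul_apply, Fin.sum_univ_two, Matrix.trace_fin_two, Matrix.det_fin_two,
      Matrix.adjugate_fin_two] <;> ring

section

variable {K : Type*} [Field K] {G : Type*} [Monoid G] (M : G →* Matrix (Fin 2) (Fin 2) K)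

/-- singular elements of the orthogonal complement vanish. -/
theorem burnside_singular
    (hirr : ∀ W : Submodule K (Fin 2 → K), (∀ g, ∀ v ∈ W, (M g).mulVec v ∈ W) → W = ⊥ ∨ W = ⊤)
    (Z : Matrix (Fin 2) (Fin 2) K) (hZ : ∀ g, (Z * M g).trace = 0) (hdet : Z.det = 0) : Z = 0 := by
  have key : ∀ g, Z * M g * Z = 0 := by
    intro g
    rw [mul_mul_self_two, hZ g, hdet, zero_smul, zero_smul, sub_zero]
  let W : Submodule K (Fin 2 → K) :=
    { carrier := {v | ∀ g, (Z * M g).mulVec v = 0}
      add_mem' := by
        intro a b ha hb g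
        rw [Matrix.mulVec_add, ha g, hb g, add_zero]
      zero_mem' := by
        intro g
        rw [Matrix.mulVec_zero]
      smul_mem' := by
        intro c a ha g
        rw [Matrix.mulVec_smul, ha g, smul_zero] }
  have hW : ∀ g, ∀ v ∈ W, (M g).mulVec v ∈ W := by
    intro g v hv h
    have := hv (h * g)
    rw [map_mul, ← mul_assoc] at this
    rw [Matrix.mulVec_mulVec]
    exact this
  have hcol : ∀ v, Z.mulVec v ∈ W := by
    intro v g
    rw [Matrix.mulVec_mulVec, key g, Matrix.zero_mulVec]
  rcases hirr W hW with h | h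
  · -- all columns vanish
    have : ∀ v, Z.mulVec v = 0 := by
      intro v
      have := hcol v
      rw [h] at this
      exact (Submodule.mem_bot K).mp this
    ext i j
    have h2 := congrFun (this (Pi.single j 1)) i
    simpa using h2
  · have : ∀ v, Z.mulVec v = 0 := by
      intro v
      have hv : v ∈ W := by rw [h]; exact Submodule.mem_top
      have := hv 1
      rwa [map_one, mul_one] at this
    ext i j
    have h2 := congrFun (this (Pi.single j 1)) i
    simpa using h2

theorem burnside_dual [IsAlgClosed K]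
    (hirr : ∀ W : Submodule K (Fin 2 → K), (∀ g, ∀ v ∈ W, (M g).mulVec v ∈ W) → W = ⊥ ∨ W = ⊤)
    (X : Matrix (Fin 2) (Fin 2) K) (hX : ∀ g, (X * M g).trace = 0) : X = 0 := by
  by_contra hX0
  have hdet : X.det ≠ 0 := fun h => hX0 (burnside_singular M hirr X hX h)
  -- every `M g` is a scalar
  have hscal : ∀ g, ∃ c : K, M g = c • (1 : Matrix (Fin 2) (Fin 2) K) := by
    intro g
    obtain ⟨c, hc⟩ := IsAlgClosed.exists_root (M g).charpoly (by
      rw [Matrix.charpoly_degree_eq_dim]; simp)
    refine ⟨c, ?_⟩
    have hc' : (M g - c • (1 : Matrix (Fin 2) (Fin 2) K)).det = 0 := by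
      have h1 : (M g).charpoly.eval c = (c • (1 : Matrix (Fin 2) (Fin 2) K) - M g).det := by
        rw [Matrix.eval_charpoly]
        congr 1
        ext i j
        simp [Matrix.scalar_apply, Matrix.one_apply, Matrix.diagonal_apply]
      rw [Polynomial.IsRoot.def, h1] at hc
      rw [← neg_sub, Matrix.det_neg, hc, mul_zero]
    have hZ : X * (M g - c • (1 : Matrix (Fin 2) (Fin 2) K)) = 0 := by
      apply burnside_singular M hirr
      · intro h
        rw [mul_sub, sub_mul, Matrix.trace_sub, mul_assoc, ← map_mul, hX, mul_smul_comm, mul_one,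
          smul_mul_assoc, Matrix.trace_smul, hX, smul_zero, sub_zero]
      · rw [Matrix.det_mul, hc', mul_zero]
    have hu : IsUnit X.det := isUnit_iff_ne_zero.mpr hdet
    have := congrArg (fun Y => X⁻¹ * Y) hZ
    simp only [mul_zero] at this
    rw [← mul_assoc, Matrix.nonsing_inv_mul X hu, one_mul, sub_eq_zero] at this
    exact this
  -- so the first coordinate axis is stable
  let W : Submodule K (Fin 2 → K) := Submodule.span K {Pi.single 0 1}
  have hW : ∀ g, ∀ v ∈ W, (M g).mulVec v ∈ W := by
    intro g v hv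
    obtain ⟨c, hc⟩ := hscal g
    rw [hc, Matrix.smul_mulVec, Matrix.one_mulVec]
    exact W.smul_mem c hv
  rcases hirr W hW with h | h
  · have : (Pi.single 0 1 : Fin 2 → K) ∈ W := Submodule.mem_span_singleton_self _
    rw [h, Submodule.mem_bot] at this
    have := congrFun this 0
    simp at this
  · have : (Pi.single 1 1 : Fin 2 → K) ∈ W := by rw [h]; exact Submodule.mem_top
    obtain ⟨c, hc⟩ := Submodule.mem_span_singleton.mp this
    have := congrFun hc 1
    simp at this

end

end Fermat.Agent.S31
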