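import Fermat.Agent.S31.Burnside

/-!
# S31, L2: over a local ring, a residually absolutely irreducible two dimensional representation
is determined by its trace (in the form needed).
-/

set_option autoImplicit false

namespace Fermat.Agent.S31

open Matrix

/-- the entries of the matrices `M g` span everything. -/
theorem span_entries_eq_top {K : Type*} [Field K] [IsAlgClosed K] {G : Type*} [Monoid G]
    (M : G →* Matrix (Fin 2) (Fin 2) K)
    (hirr : ∀ W : Submodule K (Fin 2 → K), (∀ g, ∀ v ∈ W, (M g).mulVec v ∈ W) → W = ⊥ ∨ W = ⊤) :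
    Submodule.span K (Set.range fun g : G => fun ab : Fin 2 × Fin 2 => M g ab.1 ab.2) = ⊤ := by
  by_contra hne
  obtain ⟨f, hf0, hf⟩ := Submodule.exists_le_ker_of_lt_top _ (lt_top_iff_ne_top.mpr hne)
  apply hf0
  have hfw : ∀ w : Fin 2 × Fin 2 → K, f w = ∑ ab, w ab * f (Pi.single ab 1) := by
    intro w
    conv_lhs => rw [LinearMap.pi_apply_eq_sum_univ f w]
    refine Finset.sum_congr rfl fun ab _ => ?_
    rw [smul_eq_mul]
    congr 2
    funext j
    simp [Pi.single_apply, eq_comm]
  let X : Matrix (Fin 2) (Fin 2) K := fun b a => f (Pi.single (a, b) 1)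
  have hX : X = 0 := by
    apply burnside_dual M hirr
    intro g
    have h1 : f (fun ab : Fin 2 × Fin 2 => M g ab.1 ab.2) = 0 :=
      hf (Submodule.subset_span ⟨g, rfl⟩)
    rw [hfw, Fintype.sum_prod_type] at h1
    simp only [Matrix.trace, Matrix.diag, Matrix.mul_apply]
    rw [Finset.sum_comm]
    rw [← h1]
    refine Finset.sum_congr rfl fun a _ => Finset.sum_congr rfl fun b _ => ?_
    exact mul_comm _ _
  refine LinearMap.ext fun w => ?_
  rw [hfw]
  simp only [LinearMap.zero_apply]
  refine Finset.sum_eq_zero fun ab _ => ?_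
  have : f (Pi.single ab 1) = X ab.2 ab.1 := rfl
  rw [this, hX]
  simp

theorem trace_determines {T : Type*} [CommRing T] [IsLocalRing T] {K : Type*} [Field K]
    [IsAlgClosed K] (φ : T →+* K) [IsLocalHom φ] {G : Type*} [Monoid G]
    (M : G →* Matrix (Fin 2) (Fin 2) T)
    (hirr : ∀ W : Submodule K (Fin 2 → K),
      (∀ g, ∀ v ∈ W, ((M g).map φ).mulVec v ∈ W) → W = ⊥ ∨ W = ⊤)
    (X : Matrix (Fin 2) (Fin 2) T) (hX : ∀ g, (X * M g).trace = 0) : X = 0 := by
  classical
  let Mb : G →* Matrix (Fin 2) (Fin 2) K := (φ.mapMatrix : Matrix (Fin 2) (Fin 2) T →+* Matrix (Fin 2) (Fin 2) K).toMonoidHom.comp M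
  have hspan := span_entries_eq_top Mb hirr
  set s : Set (Fin 2 × Fin 2 → K) :=
    Set.range fun g : G => fun ab : Fin 2 × Fin 2 => Mb g ab.1 ab.2 with hs
  obtain ⟨f, hfs, -, hfli⟩ := Submodule.exists_fun_fin_finrank_span_eq K s
  have hcard : Module.finrank K (Submodule.span K s) = 4 := by
    rw [hspan, finrank_top, Module.finrank_fintype_fun_eq_card]
    simp
  let e : (Fin 2 × Fin 2) ≃ Fin (Module.finrank K (Submodule.span K s)) :=
    Fintype.equivOfCardEq (by rw [hcard]; simp)
  choose γ hγ using hfs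
  let Ω : Matrix (Fin 2 × Fin 2) (Fin 2 × Fin 2) T := fun i ab => M (γ (e i)) ab.1 ab.2
  have hΩ : (Ω.map φ).row = f ∘ e := by
    funext i
    have := hγ (e i)
    simp only [Function.comp]
    rw [← this]
    rfl
  have hunit : IsUnit (Ω.map φ) := by
    rw [← Matrix.linearIndependent_rows_iff_isUnit, hΩ]
    exact hfli.comp _ e.injective
  have hdet : IsUnit Ω.det := by
    have h1 : IsUnit (Ω.map φ).det := (Matrix.isUnit_iff_isUnit_det _).mp hunit
    have h2 : (Ω.map φ).det = φ Ω.det := by
      rw [RingHom.map_det]; rfl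
    rw [h2] at h1
    exact (isUnit_map_iff φ _).mp h1
  let x : Fin 2 × Fin 2 → T := fun ab => X ab.2 ab.1
  have hx : Ω.mulVec x = 0 := by
    funext i
    have h1 := hX (γ (e i))
    simp only [Matrix.trace, Matrix.diag, Matrix.mul_apply] at h1
    rw [Finset.sum_comm] at h1
    simp only [Matrix.mulVec, dotProduct, Pi.zero_apply]
    rw [Fintype.sum_prod_type, ← h1]
    refine Finset.sum_congr rfl fun a _ => Finset.sum_congr rfl fun b _ => ?_
    exact mul_comm _ _
  have hx0 : x = 0 := by
    have := congrArg (fun y => Ω⁻¹.mulVec y) hx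
    simp only [Matrix.mulVec_zero, Matrix.mulVec_mulVec] at this
    rwa [Matrix.nonsing_inv_mul Ω hdet, Matrix.one_mulVec] at this
  ext i j
  exact congrFun hx0 (j, i)

end Fermat.Agent.S31
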